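import Fermat.Agent.LT.T7.H144.WSpecCut
import Fermat.Agent.LT.T2.H886.CuspAlg
import Fermat.Agent.LT.T2.H546.MeanLin
import Fermat.Agent.LT.T2.H472.LocContLeaf

/-!
# Row LT, tower T7, leaf T7.L2.2.B1.W4 `ClassBasisC144` (helper618, registry row 2451)

OFF-MAIN, never land.  Imports: the byte-identical spec closure of `LT/T7/H144/WSpecCut.lean`
(helper144@ab01b0acf) and the closed assets of T2 (`H886/CuspAlg`, `H546/MeanLin`,
`H472/LocContLeaf`).

`classBasisC618 (K) : H144W.ClassBasisC144 K`, VERBATIM.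

The class `J` of `j₀` is finite, `T c = ∑_{j ∈ J} c_j u_j` (`c ∈ EuclideanSpace ℂ J`),
`⟨T c, T d⟩ = ⟪d, c⟫`; `U = {c : T c Iwahori invariant}`, `v` = the image of the standard
orthonormal basis of `U`.  The projection `E ψ = ∑_{j ∈ J} ⟨ψ, u_j⟩ u_j` of an Iwahori invariant
`ψ` is Iwahori invariant (W2 + W3), which gives the Parseval identity of the class.
-/

set_option autoImplicit false
set_option linter.unusedSectionVars false
set_option linter.unusedVariables false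
set_option linter.style.haveILetI false

open AutomorphicForm IsDedekindDomain NumberField MeasureTheory
open scoped ComplexConjugate

noncomputable section

namespace Fermat.Agent.LT.T7.H618

open Fermat.Agent.LT.H556 Fermat.Agent.LT.H556.A0 Fermat.Agent.LT Fermat.Agent.LT.T7

attribute [local instance] Fermat.Agent.LT.T5.instMeasurableSpaceG

variable {K : Type} [Field K] [NumberField K]

/-! ## 1. Eigen-data -/

theorem agreeOut_symm618 {S : Finset (HeightOneSpectrum (𝓞 K))} {C C' : EigData K}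
    (h : C.AgreeOut S C') : C'.AgreeOut S C :=
  ⟨fun w hw => ⟨((h.1 w hw).1).symm, ((h.1 w hw).2).symm⟩, fun w d hd => (h.2 w d hd).symm⟩

theorem agreeOut_trans618 {S : Finset (HeightOneSpectrum (𝓞 K))} {C C' C'' : EigData K}
    (h : C.AgreeOut S C') (h' : C'.AgreeOut S C'') : C.AgreeOut S C'' :=
  ⟨fun w hw => ⟨((h.1 w hw).1).trans (h'.1 w hw).1, ((h.1 w hw).2).trans (h'.1 w hw).2⟩,
    fun w d hd => (h.2 w d hd).trans (h'.2 w d hd)⟩

/-- An eigenfunction for `C` is an eigenfunction for every `C'` which agrees with `C` outside the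
divisors of the level. -/
theorem isEigFn_of_agree618 {𝔫 : Ideal (𝓞 K)} {r : G K} {l : ℕ}
    {o : ℕ → HeightOneSpectrum (𝓞 K)} {ψ : G K → ℂ} {C C' : EigData K}
    {S : Finset (HeightOneSpectrum (𝓞 K))}
    (hS : ∀ v : HeightOneSpectrum (𝓞 K), v ∈ S ↔ v.asIdeal ∣ 𝔫)
    (h : IsEigFn 𝔫 r l o ψ C) (hA : C.AgreeOut S C') : IsEigFn 𝔫 r l o ψ C' where
  inv := h.inv
  hecke := fun v hv => by
    have hvS : v ∉ S := fun hm => hv ((hS v).1 hm)
    obtain ⟨ha, hb⟩ := hA.1 v hvS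
    rw [← ha, ← hb]
    exact h.hecke v hv
  mean := fun w d hd Y hY g => by
    rw [← hA.2 w d hd]
    exact h.mean w d hd Y hY g

/-! ## 2. The Iwahori condition -/

theorem isIwInv_zero618 (o : ℕ → HeightOneSpectrum (𝓞 K)) (ψ : G K → ℂ) : IsIwInv 0 o ψ := by
  intro h hI hF _ x
  have hx : h = 1 :=
    T2.eq_one_of_triv130 hI (fun v => hF v (fun j hj => absurd hj (Nat.not_lt_zero j)))
  rw [hx, mul_one]

theorem isWFn_zero_of618 {𝔫 : Ideal (𝓞 K)} {r : G K} {l : ℕ}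
    {o : ℕ → HeightOneSpectrum (𝓞 K)} {ψ : G K → ℂ} (h : IsWFn 𝔫 r l o ψ) :
    IsWFn 𝔫 r 0 o ψ :=
  ⟨h.cusp, h.arch_scalar, isIwInv_zero618 o ψ⟩

theorem isEigFn_zero_of618 {𝔫 : Ideal (𝓞 K)} {r : G K} {l : ℕ}
    {o : ℕ → HeightOneSpectrum (𝓞 K)} {ψ : G K → ℂ} {C : EigData K}
    (h : IsEigFn 𝔫 r l o ψ C) : IsEigFn 𝔫 r 0 o ψ C :=
  ⟨isWFn_zero_of618 h.inv, h.hecke, h.mean⟩

theorem isEigFn_of_zero618 {𝔫 : Ideal (𝓞 K)} {r : G K} {l : ℕ}
    {o : ℕ → HeightOneSpectrum (𝓞 K)} {ψ : G K → ℂ} {C : EigData K}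
    (h : IsEigFn 𝔫 r 0 o ψ C) (hi : IsIwInv l o ψ) : IsEigFn 𝔫 r l o ψ C :=
  ⟨⟨h.inv.cusp, h.inv.arch_scalar, hi⟩, h.hecke, h.mean⟩

/-! ## 3. Linear combinations of eigenfunctions -/

theorem isWFn_zero_add_mul618 {𝔫 : Ideal (𝓞 K)} {r : G K} (hr : T5.IsRayGen r)
    (o : ℕ → HeightOneSpectrum (𝓞 K)) {φ ψ : G K → ℂ} (c : ℂ)
    (hφ : IsWFn 𝔫 r 0 o φ) (hψ : IsWFn 𝔫 r 0 o ψ) :
    IsWFn 𝔫 r 0 o (fun g => φ g + c * ψ g) :=
  (T2.isWFn_zero_iff130 hr o _).2
    (T2.H886.isCuspFn_add_const_mul886 c ((T2.isWFn_zero_iff130 hr o _).1 hφ)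
      ((T2.isWFn_zero_iff130 hr o _).1 hψ))

theorem isHeckeEigenAt_add_mul618 {φ ψ : G K → ℂ} {v : HeightOneSpectrum (𝓞 K)} {a b : ℂ}
    (c : ℂ) (hφ : IsHeckeEigenAt φ v a b) (hψ : IsHeckeEigenAt ψ v a b) :
    IsHeckeEigenAt (fun g => φ g + c * ψ g) v a b := by
  refine ⟨fun H hH g => ?_, fun z hz g => ?_⟩
  · have h1 := hφ.1 H hH g
    have h2 := hψ.1 H hH g
    simp only [Finset.sum_add_distrib, ← Finset.mul_sum]
    rw [h1, h2]
    ring
  · have h1 := hφ.2 z hz g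
    have h2 := hψ.2 z hz g
    simp only
    rw [h1, h2]
    ring

theorem meanEig_add_mul618 {φ ψ : G K → ℂ} {w : InfinitePlace K} {m : ℝ → ℂ} (c : ℂ)
    (hφc : Continuous φ) (hψc : Continuous ψ)
    (hφ : MeanEig φ w m) (hψ : MeanEig ψ w m) :
    MeanEig (fun g => φ g + c * ψ g) w m := by
  intro d hd Y hY g
  have hYc : Continuous fun p : ℝ × ℝ => Y p.1 p.2 :=
    T2.H546.continuous_sphere_h546 (T2.H472.subLocCont472 K) (w := w) (d := d) hY
  have h1 : T2.sphereMean Y φ g = m d * φ g := hφ d hd Y hY g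
  have h2 : T2.sphereMean Y ψ g = m d * ψ g := hψ d hd Y hY g
  have h3 := congrFun (T2.H546.sphereMean_lin_h546 hYc hφc hψc c) g
  show T2.sphereMean Y (fun g => φ g + c * ψ g) g = m d * (φ g + c * ψ g)
  rw [h3, h1, h2]
  ring

theorem isEigFn_zero_add_mul618 {𝔫 : Ideal (𝓞 K)} {r : G K} (hr : T5.IsRayGen r)
    (o : ℕ → HeightOneSpectrum (𝓞 K)) {φ ψ : G K → ℂ} {C : EigData K} (c : ℂ)
    (hφ : IsEigFn 𝔫 r 0 o φ C) (hψ : IsEigFn 𝔫 r 0 o ψ C) :
    IsEigFn 𝔫 r 0 o (fun g => φ g + c * ψ g) C where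
  inv := isWFn_zero_add_mul618 hr o c hφ.inv hψ.inv
  hecke := fun v hv => isHeckeEigenAt_add_mul618 c (hφ.hecke v hv) (hψ.hecke v hv)
  mean := fun w => meanEig_add_mul618 c hφ.inv.cusp.cont hψ.inv.cusp.cont (hφ.mean w) (hψ.mean w)

theorem isEigFn_zero_zero618 {𝔫 : Ideal (𝓞 K)} {r : G K} (hr : T5.IsRayGen r)
    (o : ℕ → HeightOneSpectrum (𝓞 K)) (C : EigData K) :
    IsEigFn 𝔫 r 0 o (fun _ => (0 : ℂ)) C where
  inv := (T2.isWFn_zero_iff130 hr o _).2 (T2.H886.isCuspFn_zero886 𝔫)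
  hecke := fun v hv => ⟨fun H hH g => by simp, fun z hz g => by simp⟩
  mean := fun w d hd Y hY g => by simp

theorem isEigFn_zero_sum618 {𝔫 : Ideal (𝓞 K)} {r : G K} (hr : T5.IsRayGen r)
    (o : ℕ → HeightOneSpectrum (𝓞 K)) {C : EigData K} {ι : Type} (s : Finset ι)
    (φ : ι → G K → ℂ) (c : ι → ℂ) (h : ∀ j ∈ s, IsEigFn 𝔫 r 0 o (φ j) C) :
    IsEigFn 𝔫 r 0 o (fun g => ∑ j ∈ s, c j * φ j g) C := by
  classical
  induction s using Finset.induction_on with
  | empty => simpa using isEigFn_zero_zero618 (𝔫 := 𝔫) hr o C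
  | insert a s ha ih =>
    have h1 := h a (Finset.mem_insert_self a s)
    have h2 := ih fun j hj => h j (Finset.mem_insert_of_mem hj)
    have h3 := isEigFn_zero_add_mul618 hr o (c a) h2 h1
    have e : (fun g => ∑ j ∈ insert a s, c j * φ j g)
        = fun g => (∑ j ∈ s, c j * φ j g) + c a * φ a g := by
      funext g
      rw [Finset.sum_insert ha, add_comm]
    rw [e]
    exact h3

/-! ## 4. The pairing on finite combinations -/

section Pairing

variable {𝔫 : Ideal (𝓞 K)} {R : Frame5 K} {o : ℕ → HeightOneSpectrum (𝓞 K)}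

theorem innerD_conj618 (hR : IsFrame5 R) (φ ψ : G K → ℂ) :
    conj (T5.innerD R.μ R.F φ ψ) = T5.innerD R.μ R.F ψ φ :=
  T2.H886.pair_conj_symm886 (T2.frameOf130 R hR) φ ψ

theorem innerD_add_mul_left618 (hR : IsFrame5 R) {φ ψ χ : G K → ℂ} (c : ℂ)
    (hφ : IsWFn 𝔫 R.r 0 o φ) (hψ : IsWFn 𝔫 R.r 0 o ψ) (hχ : IsWFn 𝔫 R.r 0 o χ) :
    T5.innerD R.μ R.F (fun g => φ g + c * ψ g) χ
      = T5.innerD R.μ R.F φ χ + c * T5.innerD R.μ R.F ψ χ := by
  obtain ⟨C1, hC1⟩ := hφ.cusp.bdd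
  obtain ⟨C2, hC2⟩ := hψ.cusp.bdd
  obtain ⟨C3, hC3⟩ := hχ.cusp.bdd
  have hcψc : Continuous fun g => c * ψ g := continuous_const.mul hψ.cusp.cont
  have hcψb : ∀ g, ‖c * ψ g‖ ≤ ‖c‖ * C2 := fun g => by
    rw [norm_mul]
    exact mul_le_mul_of_nonneg_left (hC2 g) (norm_nonneg c)
  have h1 := T2.H886.pair_add_left886 (T2.frameOf130 R hR) hφ.cusp.cont hC1 hcψc hcψb
    hχ.cusp.cont hC3
  have h2 := T2.H886.pair_const_mul_left886 (T2.frameOf130 R hR) c ψ χ
  rw [h2] at h1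
  exact h1

theorem isWFn_zero_sum618 (hR : IsFrame5 R) {ι : Type} (s : Finset ι)
    (φ : ι → G K → ℂ) (c : ι → ℂ) (h : ∀ j ∈ s, IsWFn 𝔫 R.r 0 o (φ j)) :
    IsWFn 𝔫 R.r 0 o (fun g => ∑ j ∈ s, c j * φ j g) := by
  classical
  induction s using Finset.induction_on with
  | empty =>
    simpa using (T2.isWFn_zero_iff130 hR.ray o _).2 (T2.H886.isCuspFn_zero886 𝔫)
  | insert a s ha ih =>
    have h1 := h a (Finset.mem_insert_self a s)
    have h2 := ih fun j hj => h j (Finset.mem_insert_of_mem hj)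
    have h3 := isWFn_zero_add_mul618 hR.ray o (c a) h2 h1
    have e : (fun g => ∑ j ∈ insert a s, c j * φ j g)
        = fun g => (∑ j ∈ s, c j * φ j g) + c a * φ a g := by
      funext g
      rw [Finset.sum_insert ha, add_comm]
    rw [e]
    exact h3

theorem innerD_zero_left618 (μ : Measure (G K)) (F : Set (G K)) (χ : G K → ℂ) :
    T5.innerD μ F (fun _ => (0 : ℂ)) χ = 0 := by
  show ∫ x in F, (0 : ℂ) * conj (χ x) ∂μ = 0
  simp

theorem innerD_sum_left618 (hR : IsFrame5 R) {ι : Type} (s : Finset ι)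
    (φ : ι → G K → ℂ) (c : ι → ℂ) (h : ∀ j ∈ s, IsWFn 𝔫 R.r 0 o (φ j)) {χ : G K → ℂ}
    (hχ : IsWFn 𝔫 R.r 0 o χ) :
    T5.innerD R.μ R.F (fun g => ∑ j ∈ s, c j * φ j g) χ
      = ∑ j ∈ s, c j * T5.innerD R.μ R.F (φ j) χ := by
  classical
  induction s using Finset.induction_on with
  | empty =>
    simp only [Finset.sum_empty]
    exact innerD_zero_left618 R.μ R.F χ
  | insert a s ha ih =>
    have h1 := h a (Finset.mem_insert_self a s)
    have h2 : ∀ j ∈ s, IsWFn 𝔫 R.r 0 o (φ j) := fun j hj => h j (Finset.mem_insert_of_mem hj)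
    have e : (fun g => ∑ j ∈ insert a s, c j * φ j g)
        = fun g => (∑ j ∈ s, c j * φ j g) + c a * φ a g := by
      funext g
      rw [Finset.sum_insert ha, add_comm]
    rw [e, innerD_add_mul_left618 hR (c a) (isWFn_zero_sum618 hR s φ c h2) h1 hχ, ih h2,
      Finset.sum_insert ha, add_comm]

theorem innerD_sum_right618 (hR : IsFrame5 R) {ι : Type} (s : Finset ι)
    (φ : ι → G K → ℂ) (c : ι → ℂ) (h : ∀ j ∈ s, IsWFn 𝔫 R.r 0 o (φ j)) {χ : G K → ℂ}
    (hχ : IsWFn 𝔫 R.r 0 o χ) :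
    T5.innerD R.μ R.F χ (fun g => ∑ j ∈ s, c j * φ j g)
      = ∑ j ∈ s, conj (c j) * T5.innerD R.μ R.F χ (φ j) := by
  rw [← innerD_conj618 hR, innerD_sum_left618 hR s φ c h hχ, map_sum]
  refine Finset.sum_congr rfl fun j _ => ?_
  rw [map_mul, innerD_conj618 hR]

end Pairing

/-! ## 5. The combinations of the class -/

section Class

variable {𝔫 : Ideal (𝓞 K)} {R : Frame5 K} {o : ℕ → HeightOneSpectrum (𝓞 K)} {ι : Type}

theorem agreeOut_refl618 (S : Finset (HeightOneSpectrum (𝓞 K))) (C : EigData K) :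
    C.AgreeOut S C :=
  ⟨fun _ _ => ⟨rfl, rfl⟩, fun _ _ _ => rfl⟩

/-- The combination `∑_{j ∈ J} c_j u_j`. -/
def comb618 (J : Finset ι) (u : ι → G K → ℂ) (c : {j // j ∈ J} → ℂ) : G K → ℂ :=
  fun g => ∑ j : {j // j ∈ J}, c j * u j.1 g

theorem comb_eq_sum618 (J : Finset ι) (u : ι → G K → ℂ) (c : ι → ℂ) (g : G K) :
    ∑ j ∈ J, c j * u j g = comb618 J u (fun j => c j.1) g := by
  unfold comb618
  exact (Finset.sum_coe_sort J (fun j => c j * u j g)).symm

theorem isWFn_comb618 (hR : IsFrame5 R) (J : Finset ι) (u : ι → G K → ℂ)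
    (huW : ∀ j ∈ J, IsWFn 𝔫 R.r 0 o (u j)) (c : {j // j ∈ J} → ℂ) :
    IsWFn 𝔫 R.r 0 o (comb618 J u c) :=
  isWFn_zero_sum618 hR Finset.univ (fun j : {j // j ∈ J} => u j.1) c (fun j _ => huW j.1 j.2)

theorem isEigFn_comb618 (hR : IsFrame5 R) (J : Finset ι) (u : ι → G K → ℂ) {C : EigData K}
    (huE : ∀ j ∈ J, IsEigFn 𝔫 R.r 0 o (u j) C) (c : {j // j ∈ J} → ℂ) :
    IsEigFn 𝔫 R.r 0 o (comb618 J u c) C :=
  isEigFn_zero_sum618 hR.ray o Finset.univ (fun j : {j // j ∈ J} => u j.1) c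
    (fun j _ => huE j.1 j.2)

theorem innerD_comb_left618 (hR : IsFrame5 R) (J : Finset ι) (u : ι → G K → ℂ)
    (huW : ∀ j ∈ J, IsWFn 𝔫 R.r 0 o (u j)) (c : {j // j ∈ J} → ℂ) {χ : G K → ℂ}
    (hχ : IsWFn 𝔫 R.r 0 o χ) :
    T5.innerD R.μ R.F (comb618 J u c) χ
      = ∑ j : {j // j ∈ J}, c j * T5.innerD R.μ R.F (u j.1) χ :=
  innerD_sum_left618 hR Finset.univ (fun j : {j // j ∈ J} => u j.1) c
    (fun j _ => huW j.1 j.2) hχ

theorem innerD_comb_right618 (hR : IsFrame5 R) (J : Finset ι) (u : ι → G K → ℂ)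
    (huW : ∀ j ∈ J, IsWFn 𝔫 R.r 0 o (u j)) (c : {j // j ∈ J} → ℂ) {χ : G K → ℂ}
    (hχ : IsWFn 𝔫 R.r 0 o χ) :
    T5.innerD R.μ R.F χ (comb618 J u c)
      = ∑ j : {j // j ∈ J}, conj (c j) * T5.innerD R.μ R.F χ (u j.1) :=
  innerD_sum_right618 hR Finset.univ (fun j : {j // j ∈ J} => u j.1) c
    (fun j _ => huW j.1 j.2) hχ

open scoped Classical in
theorem innerD_comb_unit618 (hR : IsFrame5 R) (J : Finset ι) (u : ι → G K → ℂ)
    (huW : ∀ j ∈ J, IsWFn 𝔫 R.r 0 o (u j))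
    (hon : ∀ j k : {j // j ∈ J},
      T5.innerD R.μ R.F (u j.1) (u k.1) = if j = k then 1 else 0)
    (c : {j // j ∈ J} → ℂ) (k : {j // j ∈ J}) :
    T5.innerD R.μ R.F (comb618 J u c) (u k.1) = c k := by
  classical
  rw [innerD_comb_left618 hR J u huW c (huW k.1 k.2)]
  simp only [hon, mul_ite, mul_one, mul_zero]
  rw [Finset.sum_ite_eq' Finset.univ k c, if_pos (Finset.mem_univ k)]

open scoped Classical in
theorem innerD_comb_comb618 (hR : IsFrame5 R) (J : Finset ι) (u : ι → G K → ℂ)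
    (huW : ∀ j ∈ J, IsWFn 𝔫 R.r 0 o (u j))
    (hon : ∀ j k : {j // j ∈ J},
      T5.innerD R.μ R.F (u j.1) (u k.1) = if j = k then 1 else 0)
    (c d : {j // j ∈ J} → ℂ) :
    T5.innerD R.μ R.F (comb618 J u c) (comb618 J u d)
      = ∑ j : {j // j ∈ J}, conj (d j) * c j := by
  rw [innerD_comb_right618 hR J u huW d (isWFn_comb618 hR J u huW c)]
  refine Finset.sum_congr rfl fun j _ => ?_
  rw [innerD_comb_unit618 hR J u huW hon c j]

theorem comb_add618 (J : Finset ι) (u : ι → G K → ℂ) (c d : {j // j ∈ J} → ℂ) (g : G K) :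
    comb618 J u (fun j => c j + d j) g = comb618 J u c g + comb618 J u d g := by
  unfold comb618
  rw [← Finset.sum_add_distrib]
  refine Finset.sum_congr rfl fun j _ => ?_
  ring

theorem comb_smul618 (J : Finset ι) (u : ι → G K → ℂ) (a : ℂ) (c : {j // j ∈ J} → ℂ)
    (g : G K) :
    comb618 J u (fun j => a * c j) g = a * comb618 J u c g := by
  unfold comb618
  rw [Finset.mul_sum]
  refine Finset.sum_congr rfl fun j _ => ?_
  ring

theorem comb_zero618 (J : Finset ι) (u : ι → G K → ℂ) (g : G K) :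
    comb618 J u (fun _ => 0) g = 0 := by
  unfold comb618
  simp

/-- The coefficient vectors of the Iwahori invariant combinations. -/
def iwSub618 (l : ℕ) (o : ℕ → HeightOneSpectrum (𝓞 K)) (J : Finset ι) (u : ι → G K → ℂ) :
    Submodule ℂ (EuclideanSpace ℂ {j // j ∈ J}) where
  carrier := {c | IsIwInv l o (comb618 J u (fun j => c j))}
  add_mem' := by
    intro c d hc hd h hI hF hIw x
    have h1 := hc h hI hF hIw x
    have h2 := hd h hI hF hIw x
    have e : ∀ g, comb618 J u (fun j => (c + d) j) g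
        = comb618 J u (fun j => c j) g + comb618 J u (fun j => d j) g := fun g =>
      comb_add618 J u (fun j => c j) (fun j => d j) g
    rw [e, e, h1, h2]
  zero_mem' := by
    intro h hI hF hIw x
    have e : ∀ g, comb618 J u (fun j => (0 : EuclideanSpace ℂ {j // j ∈ J}) j) g = 0 :=
      fun g => comb_zero618 J u g
    rw [e, e]
  smul_mem' := by
    intro a c hc h hI hF hIw x
    have h1 := hc h hI hF hIw x
    have e : ∀ g, comb618 J u (fun j => (a • c) j) g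
        = a * comb618 J u (fun j => c j) g := fun g =>
      comb_smul618 J u a (fun j => c j) g
    rw [e, e, h1]

theorem mem_iwSub618 (l : ℕ) (o : ℕ → HeightOneSpectrum (𝓞 K)) (J : Finset ι)
    (u : ι → G K → ℂ) (c : EuclideanSpace ℂ {j // j ∈ J}) :
    c ∈ iwSub618 l o J u ↔ IsIwInv l o (comb618 J u (fun j => c j)) := Iff.rfl

end Class

/-! ## 6. The leaf -/

/-- **LEAF W4 `ClassBasisC144`** (registry row 2451), VERBATIM. -/
theorem classBasisC618 (K : Type) [Field K] [NumberField K] : H144W.ClassBasisC144 K := by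
  intro hW2 hW3 hcx 𝔫 h𝔫 R hR l o ho S hS ι u C₀ hB j₀ J hJ
  classical
  have hS' : ∀ v : HeightOneSpectrum (𝓞 K), v.asIdeal ∣ 𝔫 → v ∈ S := fun v hv => (hS v).2 hv
  have huE : ∀ j ∈ J, IsEigFn 𝔫 R.r 0 o (u j) (C₀ j₀) := fun j hj =>
    isEigFn_of_agree618 hS (hB.eig j) ((hJ j).1 hj)
  have huW : ∀ j ∈ J, IsWFn 𝔫 R.r 0 o (u j) := fun j _ => (hB.eig j).inv
  have hon : ∀ j k : {j // j ∈ J},
      T5.innerD R.μ R.F (u j.1) (u k.1) = if j = k then 1 else 0 := by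
    intro j k
    by_cases hjk : j = k
    · rw [if_pos hjk, hjk]
      exact hB.norm_one k.1
    · rw [if_neg hjk]
      exact hB.orth j.1 k.1 (fun h => hjk (Subtype.ext h))
  -- the expansion of the eigenfunctions of the class (W2)
  have hexp : ∀ (ψ : G K → ℂ), IsEigFn 𝔫 R.r 0 o ψ (C₀ j₀) →
      ψ = comb618 J u (fun j => T5.innerD R.μ R.F ψ (u j.1)) := by
    intro ψ hψ
    funext x
    have h1 := (hW2 hcx 𝔫 h𝔫 R hR o ι u C₀ hB S hS' ψ (C₀ j₀) hψ).2 J
      (fun j hj => (hJ j).2 (agreeOut_symm618 hj)) x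
    rw [h1]
    exact comb_eq_sum618 J u (fun j => T5.innerD R.μ R.F ψ (u j)) x
  -- the projection of an Iwahori invariant function is Iwahori invariant (W2 + W3)
  have hproj : ∀ ψ : G K → ℂ, IsWFn 𝔫 R.r l o ψ →
      IsIwInv l o (comb618 J u (fun j => T5.innerD R.μ R.F ψ (u j.1))) := by
    intro ψ hψ i hi1 hi2 hi3 x
    obtain ⟨hEi, hIi, hj1, hj2, hj3⟩ := hW3 𝔫 h𝔫 R hR l o ho i hi1 hi2 hi3
    obtain ⟨hEi', -, -⟩ := hW3 𝔫 h𝔫 R hR l o ho i⁻¹ hj1 hj2 hj3
    obtain ⟨c, hc⟩ : ∃ c : {j // j ∈ J} → ℂ, c = fun j => T5.innerD R.μ R.F ψ (u j.1) :=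
      ⟨_, rfl⟩
    rw [← hc]
    have hψ0 : IsWFn 𝔫 R.r 0 o ψ := isWFn_zero_of618 hψ
    have hEψ : IsWFn 𝔫 R.r 0 o (comb618 J u c) := isWFn_comb618 hR J u huW c
    have hEψE : IsEigFn 𝔫 R.r 0 o (comb618 J u c) (C₀ j₀) := isEigFn_comb618 hR J u huE c
    have hkey : ∀ k : {j // j ∈ J},
        T5.innerD R.μ R.F (fun x => comb618 J u c (x * i)) (u k.1) = c k := by
      intro k
      have hkE : IsEigFn 𝔫 R.r 0 o (fun x => u k.1 (x * i⁻¹)) (C₀ j₀) :=
        hEi' (u k.1) (C₀ j₀) (huE k.1 k.2)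
      have hk0 : IsWFn 𝔫 R.r 0 o (fun x => u k.1 (x * i⁻¹)) := hkE.inv
      have e1 : (fun x => (fun y => u k.1 (y * i⁻¹)) (x * i)) = u k.1 := by
        funext x
        show u k.1 (x * i * i⁻¹) = u k.1 x
        rw [mul_assoc, mul_inv_cancel, mul_one]
      have s1 : T5.innerD R.μ R.F (fun x => comb618 J u c (x * i)) (u k.1)
          = T5.innerD R.μ R.F (comb618 J u c) (fun x => u k.1 (x * i⁻¹)) := by
        have h := hIi (comb618 J u c) (fun x => u k.1 (x * i⁻¹)) hEψ hk0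
        rw [e1] at h
        exact h
      have s2 : T5.innerD R.μ R.F ψ (u k.1)
          = T5.innerD R.μ R.F ψ (fun x => u k.1 (x * i⁻¹)) := by
        have h := hIi ψ (fun x => u k.1 (x * i⁻¹)) hψ0 hk0
        have e2 : (fun x => ψ (x * i)) = ψ := funext fun x => hψ.iw i hi1 hi2 hi3 x
        rw [e1, e2] at h
        exact h
      have s3 : T5.innerD R.μ R.F (comb618 J u c) (fun x => u k.1 (x * i⁻¹))
          = T5.innerD R.μ R.F ψ (fun x => u k.1 (x * i⁻¹)) := by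
        rw [hexp _ hkE, innerD_comb_right618 hR J u huW _ hEψ,
          innerD_comb_right618 hR J u huW _ hψ0]
        refine Finset.sum_congr rfl fun m _ => ?_
        rw [innerD_comb_unit618 hR J u huW hon c m, hc]
      rw [s1, s3, ← s2, hc]
    have e3 := congrFun (hexp _ (hEi _ _ hEψE)) x
    have e4 : (fun j : {j // j ∈ J} =>
        T5.innerD R.μ R.F (fun x => comb618 J u c (x * i)) (u j.1)) = c := funext hkey
    rw [e4] at e3
    exact e3
  -- the orthonormal basis of the Iwahori invariant coefficient vectors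
  obtain ⟨U, hU⟩ : ∃ U : Submodule ℂ (EuclideanSpace ℂ {j // j ∈ J}),
      ∀ c : EuclideanSpace ℂ {j // j ∈ J},
        c ∈ U ↔ IsIwInv l o (comb618 J u (fun j => c j)) :=
    ⟨iwSub618 (K := K) l o J u, fun c => Iff.rfl⟩
  obtain ⟨b, hb⟩ : ∃ b : OrthonormalBasis (Fin (Module.finrank ℂ U)) ℂ U,
      b = stdOrthonormalBasis ℂ U := ⟨_, rfl⟩
  have hbU : ∀ a, IsIwInv l o (comb618 J u (fun j => (b a : EuclideanSpace ℂ {j // j ∈ J}) j)) :=
    fun a => (hU _).1 (b a).2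
  have hinner : ∀ c d : EuclideanSpace ℂ {j // j ∈ J},
      T5.innerD R.μ R.F (comb618 J u (fun j => c j)) (comb618 J u (fun j => d j))
        = inner ℂ d c := by
    intro c d
    rw [innerD_comb_comb618 hR J u huW hon, PiLp.inner_apply]
    refine Finset.sum_congr rfl fun j _ => ?_
    rw [RCLike.inner_apply]
    ring
  refine ⟨Module.finrank ℂ U,
    fun a => comb618 J u (fun j => (b a : EuclideanSpace ℂ {j // j ∈ J}) j), ?_, ?_, ?_, ?_, ?_⟩
  · -- (1)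
    intro a
    exact isEigFn_of_zero618 (isEigFn_comb618 hR J u huE _) (hbU a)
  · -- (2)
    intro a a'
    rw [hinner, ← Submodule.coe_inner, orthonormal_iff_ite.mp b.orthonormal a' a]
    by_cases h : a = a'
    · rw [if_pos h, if_pos h.symm]
    · rw [if_neg h, if_neg (fun h' => h h'.symm)]
  · -- (3)
    intro ψ C' hψ hA
    have hψ0 : IsEigFn 𝔫 R.r 0 o ψ (C₀ j₀) :=
      isEigFn_of_agree618 hS (isEigFn_zero_of618 hψ) hA
    have hψe := hexp ψ hψ0
    obtain ⟨cE, hcE⟩ : ∃ cE : EuclideanSpace ℂ {j // j ∈ J},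
        ∀ j, cE j = T5.innerD R.μ R.F ψ (u j.1) :=
      ⟨(WithLp.toLp 2 fun j : {j // j ∈ J} => T5.innerD R.μ R.F ψ (u j.1)), fun j => rfl⟩
    have hcE' : (fun j => cE j) = fun j : {j // j ∈ J} => T5.innerD R.μ R.F ψ (u j.1) :=
      funext hcE
    have hmem : cE ∈ U := by
      rw [hU, hcE', ← hψe]
      exact hψ.inv.iw
    have hrep := b.sum_repr ⟨cE, hmem⟩
    have hrep' : ∀ j, cE j = ∑ a, b.repr ⟨cE, hmem⟩ a * (b a : EuclideanSpace ℂ {j // j ∈ J}) j := by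
      intro j
      have h1 := congrArg (fun y : U => (y : EuclideanSpace ℂ {j // j ∈ J}) j) hrep
      simp only [Submodule.coe_sum, Submodule.coe_smul] at h1
      rw [← h1]
      simp [Finset.sum_apply]
    refine ⟨fun a => b.repr ⟨cE, hmem⟩ a, fun x => ?_⟩
    rw [hψe]
    unfold comb618
    simp only [← hcE]
    simp only [hrep', Finset.sum_mul, Finset.mul_sum]
    rw [Finset.sum_comm]
    refine Finset.sum_congr rfl fun a _ => Finset.sum_congr rfl fun j _ => ?_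
    ring
  · -- (4)
    intro a χ hχ hz
    rw [innerD_comb_left618 hR J u huW _ hχ]
    refine Finset.sum_eq_zero fun j _ => ?_
    rw [hz j.1 j.2, mul_zero]
  · -- (5)
    intro ψ hψ
    have hψ0 : IsWFn 𝔫 R.r 0 o ψ := isWFn_zero_of618 hψ
    obtain ⟨cE, hcE⟩ : ∃ cE : EuclideanSpace ℂ {j // j ∈ J},
        ∀ j, cE j = T5.innerD R.μ R.F ψ (u j.1) :=
      ⟨(WithLp.toLp 2 fun j : {j // j ∈ J} => T5.innerD R.μ R.F ψ (u j.1)), fun j => rfl⟩
    have hcE' : (fun j => cE j) = fun j : {j // j ∈ J} => T5.innerD R.μ R.F ψ (u j.1) :=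
      funext hcE
    have hmem : cE ∈ U := by
      rw [hU, hcE']
      exact hproj ψ hψ
    have h1 : ∀ a, T5.innerD R.μ R.F ψ
        (comb618 J u (fun j => (b a : EuclideanSpace ℂ {j // j ∈ J}) j))
          = inner ℂ (b a) (⟨cE, hmem⟩ : U) := by
      intro a
      rw [innerD_comb_right618 hR J u huW _ hψ0, Submodule.coe_inner, PiLp.inner_apply]
      refine Finset.sum_congr rfl fun j _ => ?_
      rw [RCLike.inner_apply, hcE j]
      ring
    simp only [h1]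
    rw [b.sum_sq_norm_inner_right, Submodule.coe_norm, EuclideanSpace.norm_sq_eq]
    simp only [hcE]
    exact Finset.sum_coe_sort J (fun j => ‖T5.innerD R.μ R.F ψ (u j)‖ ^ 2)

end Fermat.Agent.LT.T7.H618

end
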